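import Mathlib
import Fermat.Prelude.Def_GaloisRep_Adic
import Fermat.Agent.F3.Interfaces

section MergeWrap_Lib_TraceRigidity_SkolemNoether -- from Lib/TraceRigidity/SkolemNoether.lean

/-!
# Skolem–Noether for matrix algebras over a local ring (owner: helper62)

Every `A`-algebra endomorphism `ψ` of `Matrix n n A`, `A` a commutative local ring, is
conjugation by an invertible matrix: there is `P` with `IsUnit P.det` and `ψ M * P = P * M`.

The matrix `P` is explicit: `P = ∑ c, ψ (single c a 1) * single i₀ c 1`, where `a` is chosen such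
that the entry `ψ (single a a 1) i₀ i₀` is a unit (possible since `∑ a, ψ (single a a 1) = 1`).
-/

namespace Fermat.Agent.TraceRigidity

open Matrix

variable {n : Type*} [Fintype n] [DecidableEq n] {A : Type*} [CommRing A]

/-- The candidate conjugating matrix. -/
noncomputable def snP (ψ : Matrix n n A →ₗ[A] Matrix n n A) (a i₀ : n) : Matrix n n A :=
  ∑ c, ψ (single c a 1) * single i₀ c 1

/-- The candidate left inverse (up to the scalar `ψ (single a a 1) i₀ i₀`). -/
noncomputable def snQ (ψ : Matrix n n A →ₗ[A] Matrix n n A) (a i₀ : n) : Matrix n n A :=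
  ∑ c, single c i₀ 1 * ψ (single a c 1)

lemma snP_intertwine (ψ : Matrix n n A →ₗ[A] Matrix n n A)
    (hmul : ∀ M N, ψ (M * N) = ψ M * ψ N) (a i₀ : n) (M : Matrix n n A) :
    ψ M * snP ψ a i₀ = snP ψ a i₀ * M := by
  induction M using Matrix.induction_on' with
  | h_zero => simp
  | h_add p q hp hq => rw [map_add, add_mul, mul_add, hp, hq]
  | h_std_basis c d x =>
    unfold snP
    rw [Finset.mul_sum, Finset.sum_mul]
    have h1 : ∀ c' : n, ψ (single c d x) * (ψ (single c' a 1) * single i₀ c' 1)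
        = if c' = d then x • (ψ (single c a 1) * single i₀ d 1) else 0 := by
      intro c'
      rw [← mul_assoc, ← hmul]
      by_cases h : c' = d
      · subst h
        rw [if_pos rfl, single_mul_single_same, mul_one]
        have : single c a x = x • single c a (1 : A) := by
          rw [smul_single, smul_eq_mul, mul_one]
        rw [this, map_smul, smul_mul_assoc]
      · rw [if_neg h, single_mul_single_of_ne _ _ _ _ (Ne.symm h) _, map_zero, zero_mul]
    have h2 : ∀ c' : n, ψ (single c' a 1) * single i₀ c' 1 * single c d x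
        = if c' = c then x • (ψ (single c a 1) * single i₀ d 1) else 0 := by
      intro c'
      rw [mul_assoc]
      by_cases h : c' = c
      · subst h
        rw [if_pos rfl, single_mul_single_same, one_mul]
        have : single i₀ d x = x • single i₀ d (1 : A) := by
          rw [smul_single, smul_eq_mul, mul_one]
        rw [this, mul_smul_comm]
      · rw [if_neg h, single_mul_single_of_ne _ _ _ _ h _, mul_zero]
    simp only [h1, h2, Finset.sum_ite_eq', Finset.mem_univ, if_true]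

lemma snQ_mul_snP (ψ : Matrix n n A →ₗ[A] Matrix n n A)
    (hmul : ∀ M N, ψ (M * N) = ψ M * ψ N) (a i₀ : n) :
    snQ ψ a i₀ * snP ψ a i₀ = (ψ (single a a 1) i₀ i₀) • (1 : Matrix n n A) := by
  unfold snQ snP
  rw [Finset.sum_mul]
  have h1 : ∀ c : n, single c i₀ 1 * ψ (single a c 1) * ∑ c', ψ (single c' a 1) * single i₀ c' 1
      = single c c (ψ (single a a 1) i₀ i₀) := by
    intro c
    rw [Finset.mul_sum]
    have h2 : ∀ c' : n, single c i₀ 1 * ψ (single a c 1) * (ψ (single c' a 1) * single i₀ c' 1)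
        = if c' = c then single c c (ψ (single a a 1) i₀ i₀) else 0 := by
      intro c'
      rw [mul_assoc (single c i₀ 1), ← mul_assoc (ψ (single a c 1)), ← hmul, ← mul_assoc]
      by_cases h : c' = c
      · subst h
        rw [if_pos rfl, single_mul_single_same, mul_one, single_mul_mul_single, one_mul, mul_one]
      · rw [if_neg h, single_mul_single_of_ne _ _ _ _ (Ne.symm h) _, map_zero, mul_zero, zero_mul]
    simp only [h2, Finset.sum_ite_eq', Finset.mem_univ, if_true]
  simp only [h1]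
  rw [sum_single_eq_diagonal]
  ext i j
  simp [Matrix.diagonal_apply, Matrix.one_apply]

/-- **Skolem–Noether over a local ring**: a multiplicative unital `A`-linear endomorphism of
`Matrix n n A` is conjugation by an invertible matrix. -/
theorem exists_conj_of_linear_mul [IsLocalRing A] [Nonempty n]
    (ψ : Matrix n n A →ₗ[A] Matrix n n A) (hone : ψ 1 = 1)
    (hmul : ∀ M N, ψ (M * N) = ψ M * ψ N) :
    ∃ P : Matrix n n A, IsUnit P.det ∧ ∀ M, ψ M * P = P * M := by
  classical
  obtain ⟨i₀⟩ := ‹Nonempty n›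
  have hsum : ∑ a, ψ (single a a 1) i₀ i₀ = 1 := by
    have h1 : ψ (∑ a, single a a (1 : A)) = 1 := by rw [sum_single_one, hone]
    rw [map_sum] at h1
    have h2 := congrFun (congrFun h1 i₀) i₀
    rwa [Matrix.sum_apply, Matrix.one_apply_eq] at h2
  have hex : ∃ a, IsUnit (ψ (single a a 1) i₀ i₀) := by
    by_contra hcon
    simp only [not_exists] at hcon
    have hmem : ∑ a, ψ (single a a 1) i₀ i₀ ∈ IsLocalRing.maximalIdeal A :=
      Ideal.sum_mem _ fun a _ => (IsLocalRing.mem_maximalIdeal _).2 (hcon a)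
    rw [hsum] at hmem
    exact (IsLocalRing.mem_maximalIdeal _).1 hmem isUnit_one
  obtain ⟨a, ha⟩ := hex
  refine ⟨snP ψ a i₀, ?_, fun M => snP_intertwine ψ hmul a i₀ M⟩
  have h := congrArg Matrix.det (snQ_mul_snP ψ hmul a i₀)
  rw [Matrix.det_mul, Matrix.det_smul, Matrix.det_one, mul_one] at h
  have hu : IsUnit ((snQ ψ a i₀).det * (snP ψ a i₀).det) := by
    rw [h]; exact ha.pow _
  exact isUnit_of_mul_isUnit_right hu

end Fermat.Agent.TraceRigidity
end MergeWrap_Lib_TraceRigidity_SkolemNoether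

section MergeWrap_Lib_TraceRigidity_Core -- from Lib/TraceRigidity/Core.lean

/-!
# Trace rigidity (Carayol's lemma), matrix form, `n = 2` (owner: helper62)

Let `A` be a commutative local ring and `r₁ r₂ : G →* M₂(A)` two representations of a monoid with
the same trace.  If four matrices `r₁ (g j)` form an `A`-basis of `M₂(A)` (this holds as soon as
the reduction of `r₁` is absolutely irreducible, by Burnside and Nakayama), then `r₁` and `r₂`
are conjugate: there is `P` with `IsUnit P.det` and `r₂ x * P = P * r₁ x` for all `x`.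
-/

namespace Fermat.Agent.TraceRigidity

open Matrix Module

variable {A : Type*} [CommRing A] {G : Type*}

/-- The matrix whose column `j` is the coordinate vector of `r (g j)`. -/
def coordMat (r : G → Matrix (Fin 2) (Fin 2) A) (g : Fin 2 × Fin 2 → G) :
    Matrix (Fin 2 × Fin 2) (Fin 2 × Fin 2) A :=
  Matrix.of fun ab j => r (g j) ab.1 ab.2

/-- The Gram matrix of the trace form on the family `r (g j)`. -/
def gramMat (r : G → Matrix (Fin 2) (Fin 2) A) (g : Fin 2 × Fin 2 → G) :
    Matrix (Fin 2 × Fin 2) (Fin 2 × Fin 2) A :=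
  Matrix.of fun j l => (r (g j) * r (g l)).trace

lemma stdBasis_repr_apply (M : Matrix (Fin 2) (Fin 2) A) (ab : Fin 2 × Fin 2) :
    (Matrix.stdBasis A (Fin 2) (Fin 2)).repr M ab = M ab.1 ab.2 := by
  obtain ⟨a, b⟩ := ab
  simp [Matrix.stdBasis]

lemma stdBasis_toMatrix (r : G → Matrix (Fin 2) (Fin 2) A) (g : Fin 2 × Fin 2 → G) :
    (Matrix.stdBasis A (Fin 2) (Fin 2)).toMatrix (fun j => r (g j)) = coordMat r g := by
  ext ab j
  rw [Basis.toMatrix_apply, stdBasis_repr_apply]
  rfl

lemma gramMat_eq (r : G → Matrix (Fin 2) (Fin 2) A) (g : Fin 2 × Fin 2 → G) :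
    gramMat r g = (coordMat r g)ᵀ * (coordMat r g).submatrix
      (Equiv.prodComm (Fin 2) (Fin 2)) id := by
  ext j l
  simp only [gramMat, coordMat, Matrix.of_apply, Matrix.mul_apply, Matrix.transpose_apply,
    Matrix.submatrix_apply, id, Matrix.trace, Matrix.diag_apply, Equiv.prodComm_apply,
    Prod.fst_swap, Prod.snd_swap]
  rw [Fintype.sum_prod_type]

lemma isUnit_det_gramMat_iff (r : G → Matrix (Fin 2) (Fin 2) A) (g : Fin 2 × Fin 2 → G) :
    IsUnit (gramMat r g).det ↔ IsUnit (coordMat r g).det := by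
  rw [gramMat_eq, Matrix.det_mul, Matrix.det_transpose, Matrix.det_permute]
  constructor
  · intro h
    exact isUnit_of_mul_isUnit_left h
  · intro h
    refine h.mul (IsUnit.mul ?_ h)
    exact ((Units.isUnit (Equiv.Perm.sign (Equiv.prodComm (Fin 2) (Fin 2)))).map
      (Int.castRingHom A))

/-- **Trace rigidity, matrix form.** -/
theorem exists_conj_of_trace_eq [Monoid G] [IsLocalRing A]
    (r₁ r₂ : G →* Matrix (Fin 2) (Fin 2) A)
    (htr : ∀ x, (r₁ x).trace = (r₂ x).trace)
    (g : Fin 2 × Fin 2 → G) (hg : IsUnit (coordMat r₁ g).det) :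
    ∃ P : Matrix (Fin 2) (Fin 2) A, IsUnit P.det ∧ ∀ x, r₂ x * P = P * r₁ x := by
  classical
  have hD : gramMat r₁ g = gramMat r₂ g := by
    ext j l
    simp only [gramMat, Matrix.of_apply, ← map_mul, htr]
  have hDu : IsUnit (gramMat r₁ g).det := (isUnit_det_gramMat_iff _ g).2 hg
  have hg2 : IsUnit (coordMat r₂ g).det := by
    rw [← isUnit_det_gramMat_iff, ← hD]; exact hDu
  set e := Matrix.stdBasis A (Fin 2) (Fin 2) with he
  obtain ⟨hli1, hsp1⟩ := (Basis.is_basis_iff_det e (v := fun j => r₁ (g j))).2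
    (by rw [Basis.det_apply, stdBasis_toMatrix]; exact hg)
  obtain ⟨hli2, hsp2⟩ := (Basis.is_basis_iff_det e (v := fun j => r₂ (g j))).2
    (by rw [Basis.det_apply, stdBasis_toMatrix]; exact hg2)
  set b₁ := Basis.mk hli1 hsp1.ge with hb₁
  set b₂ := Basis.mk hli2 hsp2.ge with hb₂
  have hb₁j : ∀ j, b₁ j = r₁ (g j) := fun j => by rw [hb₁, Basis.mk_apply]
  have hb₂j : ∀ j, b₂ j = r₂ (g j) := fun j => by rw [hb₂, Basis.mk_apply]
  set ψ : Matrix (Fin 2) (Fin 2) A →ₗ[A] Matrix (Fin 2) (Fin 2) A :=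
    b₁.constr A (fun j => r₂ (g j)) with hψdef
  -- the coordinates of `r₁ x` and `r₂ x` agree
  have hcoord : ∀ (b : Basis (Fin 2 × Fin 2) A (Matrix (Fin 2) (Fin 2) A))
      (r : G →* Matrix (Fin 2) (Fin 2) A), (∀ j, b j = r (g j)) → ∀ x,
      Matrix.vecMul (fun j => b.repr (r x) j) (gramMat r g) =
        fun l => (r (x * g l)).trace := by
    intro b r hb x
    funext l
    have hx : r x = ∑ j, b.repr (r x) j • r (g j) := by
      conv_lhs => rw [← b.sum_repr (r x)]
      exact Finset.sum_congr rfl fun j _ => by rw [hb]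
    rw [map_mul]
    conv_rhs => rw [hx]
    rw [Finset.sum_mul, Matrix.trace_sum]
    simp only [Matrix.vecMul, dotProduct, gramMat, Matrix.of_apply, smul_mul_assoc,
      Matrix.trace_smul, smul_eq_mul]
  have hrepr : ∀ x, (fun j => b₁.repr (r₁ x) j) = fun j => b₂.repr (r₂ x) j := by
    intro x
    have h1 := hcoord b₁ r₁ hb₁j x
    have h2 := hcoord b₂ r₂ hb₂j x
    rw [← hD] at h2
    have h3 : Matrix.vecMul (fun j => b₁.repr (r₁ x) j) (gramMat r₁ g) =
        Matrix.vecMul (fun j => b₂.repr (r₂ x) j) (gramMat r₁ g) := by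
      rw [h1, h2]
      funext l
      exact htr _
    exact Matrix.vecMul_injective_of_isUnit
      ((Matrix.isUnit_iff_isUnit_det _).2 hDu) h3
  have hψ : ∀ x, ψ (r₁ x) = r₂ x := by
    intro x
    conv_lhs => rw [← b₁.sum_repr (r₁ x)]
    rw [map_sum]
    conv_rhs => rw [← b₂.sum_repr (r₂ x)]
    refine Finset.sum_congr rfl fun j _ => ?_
    rw [map_smul, hψdef, Basis.constr_basis, hb₂j, congrFun (hrepr x) j]
  have hone : ψ 1 = 1 := by
    have h := hψ 1
    rwa [map_one r₁, map_one r₂] at h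
  have hmul : ∀ M N, ψ (M * N) = ψ M * ψ N := by
    have key : ∀ j l, ψ (b₁ j * b₁ l) = ψ (b₁ j) * ψ (b₁ l) := by
      intro j l
      rw [hb₁j, hb₁j, ← map_mul, hψ, hψ, hψ, map_mul]
    have h1 : (LinearMap.mul A (Matrix (Fin 2) (Fin 2) A)).compr₂ ψ =
        (LinearMap.mul A (Matrix (Fin 2) (Fin 2) A)).compl₁₂ ψ ψ := by
      refine b₁.ext fun j => b₁.ext fun l => ?_
      simpa using key j l
    intro M N
    simpa using LinearMap.congr_fun₂ h1 M N
  obtain ⟨P, hP, hPM⟩ := exists_conj_of_linear_mul ψ hone hmul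
  exact ⟨P, hP, fun x => by rw [← hψ x, hPM]⟩

end Fermat.Agent.TraceRigidity
end MergeWrap_Lib_TraceRigidity_Core

section MergeWrap_Lib_TraceRigidity_Burnside -- from Lib/TraceRigidity/Burnside.lean

/-!
# Burnside's theorem in dimension two (owner: helper62)

Over an algebraically closed field `K`, if a monoid acts irreducibly on a two-dimensional space
`W`, then the operators of the action span `End K W`.
-/

namespace Fermat.Agent.TraceRigidity

open Module Submodule

variable {K : Type*} [Field K] {W : Type*} [AddCommGroup W] [Module K W]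
  {G : Type*} [Monoid G]

/-- The span of the image of a monoid homomorphism is closed under multiplication. -/
lemma span_range_mul_mem (ρ : G →* Module.End K W) {f g : Module.End K W}
    (hf : f ∈ span K (Set.range ρ)) (hg : g ∈ span K (Set.range ρ)) :
    f * g ∈ span K (Set.range ρ) := by
  have h : Subalgebra.toSubmodule (Algebra.adjoin K (Set.range ρ)) = span K (Set.range ρ) := by
    rw [Algebra.adjoin_eq_span]
    congr 1
    rw [← MonoidHom.coe_mrange, Submonoid.closure_eq]
  rw [← h] at hf hg ⊢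
  exact (Algebra.adjoin K (Set.range ρ)).mul_mem hf hg

/-- **Burnside's theorem** for two-dimensional representations over an algebraically closed
field. -/
theorem burnside_two [IsAlgClosed K] (hW : Module.finrank K W = 2)
    (ρ : G →* Module.End K W)
    (hirr : ∀ U : Submodule K W, (∀ x, ∀ w ∈ U, ρ x w ∈ U) → U = ⊥ ∨ U = ⊤) :
    span K (Set.range ρ) = ⊤ := by
  classical
  have : FiniteDimensional K W := Module.finite_of_finrank_eq_succ hW
  have : Nontrivial W := Module.nontrivial_of_finrank_pos (R := K) (by omega)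
  set B := span K (Set.range ρ) with hB
  have hone : (1 : Module.End K W) ∈ B := subset_span ⟨1, map_one ρ⟩
  have hmulB : ∀ {f g : Module.End K W}, f ∈ B → g ∈ B → f * g ∈ B :=
    fun hf hg => span_range_mul_mem ρ hf hg
  have hρB : ∀ x, ρ x ∈ B := fun x => subset_span ⟨x, rfl⟩
  -- Step 1: a non-scalar element
  have hns : ∃ x, ∀ c : K, ρ x ≠ c • (1 : Module.End K W) := by
    by_contra hcon
    simp only [not_exists, not_forall, not_not] at hcon
    obtain ⟨w, hw⟩ := exists_ne (0 : W)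
    have hinv : ∀ x, ∀ v ∈ span K {w}, ρ x v ∈ span K {w} := by
      intro x v hv
      obtain ⟨c, hc⟩ := hcon x
      rw [hc]
      exact Submodule.smul_mem _ c hv
    rcases hirr _ hinv with h | h
    · exact hw (Submodule.span_singleton_eq_bot.1 h)
    · have h1 := finrank_span_singleton (K := K) hw
      rw [h, finrank_top, hW] at h1
      omega
  obtain ⟨x₀, hx₀⟩ := hns
  obtain ⟨μ, hμ⟩ := Module.End.exists_eigenvalue (ρ x₀)
  set N : Module.End K W := ρ x₀ - μ • (1 : Module.End K W) with hN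
  have hNB : N ∈ B := B.sub_mem (hρB x₀) (B.smul_mem μ hone)
  have hN0 : N ≠ 0 := fun h => hx₀ μ (sub_eq_zero.1 h)
  have hker : LinearMap.ker N ≠ ⊥ := by
    obtain ⟨v, hv⟩ := hμ.exists_hasEigenvector
    intro hbot
    have hvk : v ∈ LinearMap.ker N := by
      rw [LinearMap.mem_ker, hN, LinearMap.sub_apply, hv.apply_eq_smul]
      simp
    rw [hbot, Submodule.mem_bot] at hvk
    exact hv.2 hvk
  -- Step 2: `N` has rank one
  obtain ⟨w₀, hw₀⟩ : ∃ w₀, N w₀ ≠ 0 := by
    by_contra h
    simp only [not_exists, not_not] at h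
    exact hN0 (LinearMap.ext h)
  set u := N w₀ with hu
  have hrange : span K {u} = LinearMap.range N := by
    apply Submodule.eq_of_le_of_finrank_le
    · rw [span_singleton_le_iff_mem]; exact ⟨w₀, rfl⟩
    · rw [finrank_span_singleton hw₀]
      have h1 := LinearMap.finrank_range_add_finrank_ker N
      have h2 : 1 ≤ finrank K (LinearMap.ker N) := Submodule.one_le_finrank_iff.2 hker
      omega
  obtain ⟨lam₀, hlam₀⟩ : ∃ lam : Module.Dual K W, lam u ≠ 0 := by
    by_contra h
    simp only [not_exists, not_not] at h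
    exact hw₀ ((Module.forall_dual_apply_eq_zero_iff K u).1 h)
  set φ : Module.Dual K W := (lam₀ u)⁻¹ • (lam₀ ∘ₗ N) with hφ
  have hNφ : ∀ w, N w = φ w • u := by
    intro w
    have hmem : N w ∈ span K {u} := hrange ▸ LinearMap.mem_range_self N w
    obtain ⟨c, hc⟩ := mem_span_singleton.1 hmem
    rw [hφ, LinearMap.smul_apply, LinearMap.comp_apply, ← hc, map_smul, smul_eq_mul, smul_eq_mul,
      mul_comm c, ← mul_assoc, inv_mul_cancel₀ hlam₀, one_mul]
  have hφw₀ : φ w₀ ≠ 0 := by
    intro h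
    have := hNφ w₀
    rw [h, zero_smul] at this
    exact hw₀ this
  -- Step 3: `B u = W`
  have hBu : ∀ w, ∃ c ∈ B, c u = w := by
    set U₁ : Submodule K W := B.map (LinearMap.applyₗ u) with hU₁
    have hmemU : ∀ w, w ∈ U₁ ↔ ∃ c ∈ B, c u = w := by
      intro w
      rw [hU₁, Submodule.mem_map]
      rfl
    have hinv : ∀ x, ∀ w ∈ U₁, ρ x w ∈ U₁ := by
      intro x w hw
      obtain ⟨c, hc, rfl⟩ := (hmemU w).1 hw
      exact (hmemU _).2 ⟨ρ x * c, hmulB (hρB x) hc, rfl⟩
    have hu1 : u ∈ U₁ := (hmemU u).2 ⟨1, hone, rfl⟩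
    rcases hirr _ hinv with h | h
    · rw [h, Submodule.mem_bot] at hu1
      exact absurd hu1 hw₀
    · intro w
      exact (hmemU w).1 (h ▸ Submodule.mem_top)
  -- Step 4: `φ ∘ B = W*`
  have hφB : ∀ ψ : Module.Dual K W, ∃ d ∈ B, φ ∘ₗ d = ψ := by
    set Φ : Submodule K (Module.Dual K W) := B.map (LinearMap.llcomp K W W K φ) with hΦ
    have hmemΦ : ∀ ψ, ψ ∈ Φ ↔ ∃ d ∈ B, φ ∘ₗ d = ψ := by
      intro ψ
      rw [hΦ, Submodule.mem_map]
      rfl
    have hinv : ∀ x, ∀ w ∈ Φ.dualCoannihilator, ρ x w ∈ Φ.dualCoannihilator := by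
      intro x w hw
      rw [Submodule.mem_dualCoannihilator] at hw ⊢
      intro ψ hψ
      obtain ⟨d, hd, rfl⟩ := (hmemΦ ψ).1 hψ
      exact hw (φ ∘ₗ (d * ρ x)) ((hmemΦ _).2 ⟨d * ρ x, hmulB hd (hρB x), rfl⟩)
    have hZ : Φ.dualCoannihilator = ⊥ := by
      rcases hirr _ hinv with h | h
      · exact h
      · exfalso
        have hw : w₀ ∈ Φ.dualCoannihilator := h ▸ Submodule.mem_top
        rw [Submodule.mem_dualCoannihilator] at hw
        exact hφw₀ (hw φ ((hmemΦ φ).2 ⟨1, hone, rfl⟩))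
    have hΦtop : Φ = ⊤ := by
      rw [← Subspace.dualCoannihilator_dualAnnihilator_eq (W := Φ), hZ,
        Submodule.dualAnnihilator_bot]
    intro ψ
    exact (hmemΦ ψ).1 (hΦtop ▸ Submodule.mem_top)
  -- Steps 5-6
  rw [eq_top_iff]
  intro f _
  set b : Basis (Fin 2) K W := Module.finBasisOfFinrankEq K W hW with hb
  choose c hcB hc using hBu
  choose d hdB hd using hφB
  have hf : f = ∑ i, c (b i) * N * d (b.coord i ∘ₗ f) := by
    refine LinearMap.ext fun v => ?_
    rw [LinearMap.sum_apply]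
    conv_lhs => rw [← b.sum_repr (f v)]
    refine Finset.sum_congr rfl fun i _ => ?_
    rw [Module.End.mul_apply, Module.End.mul_apply, hNφ, map_smul, hc]
    congr 1
    have := LinearMap.congr_fun (hd (b.coord i ∘ₗ f)) v
    rw [LinearMap.comp_apply] at this
    rw [this]
    rfl
  rw [hf]
  exact Submodule.sum_mem _ fun i _ => hmulB (hmulB (hcB _) hNB) (hdB _)

end Fermat.Agent.TraceRigidity
end MergeWrap_Lib_TraceRigidity_Burnside

section MergeWrap_Lib_TraceRigidity_GaloisRep -- from Lib/TraceRigidity/GaloisRep.lean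

/-!
# Trace rigidity for `GaloisRepAdic` (Carayol's lemma) (owner: helper62)

Two representations `ρ₁ ρ₂ : GaloisRepAdic A` over a local ring `A` with the same traces, the
first one residually absolutely irreducible, are equivalent (`GaloisRepAdic.IsEquiv`).
-/

namespace Fermat.Agent.TraceRigidity

open Matrix Module TensorProduct

/-- From a spanning family of `2 × 2` matrices over a field one can extract a basis. -/
lemma exists_coordMat_det_ne_zero {K : Type*} [Field K] {G : Type*}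
    (r : G → Matrix (Fin 2) (Fin 2) K) (hspan : Submodule.span K (Set.range r) = ⊤) :
    ∃ g : Fin 2 × Fin 2 → G, (coordMat r g).det ≠ 0 := by
  classical
  set B := Basis.ofSpan hspan.ge with hB
  set e := B.indexEquiv (Matrix.stdBasis K (Fin 2) (Fin 2)) with he
  set B' := B.reindex e with hB'
  have hmem : ∀ j : Fin 2 × Fin 2, ∃ x : G, r x = B' j := by
    intro j
    have h1 : B (e.symm j) ∈ Set.range r := Basis.ofSpan_subset hspan.ge ⟨e.symm j, rfl⟩
    obtain ⟨x, hx⟩ := h1
    exact ⟨x, by rw [hx, hB', Basis.reindex_apply]⟩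
  choose g hg using hmem
  refine ⟨g, ?_⟩
  have h2 : (fun j => r (g j)) = ⇑B' := funext hg
  have h3 : IsUnit ((Matrix.stdBasis K (Fin 2) (Fin 2)).det (fun j => r (g j))) := by
    rw [h2]
    exact Basis.isUnit_det _ B'
  rw [Basis.det_apply, stdBasis_toMatrix] at h3
  exact h3.ne_zero

lemma coordMat_map {A B : Type*} [CommRing A] [CommRing B] (φ : A →+* B) {G : Type*}
    (r : G → Matrix (Fin 2) (Fin 2) A) (g : Fin 2 × Fin 2 → G) :
    coordMat (fun x => (r x).map φ) g = (coordMat r g).map φ := by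
  ext ab j
  rfl

lemma span_range_toMatrix {K : Type*} [Field K] {W : Type*} [AddCommGroup W] [Module K W]
    (bK : Basis (Fin 2) K W) {G : Type*} (ρ : G → Module.End K W)
    (h : Submodule.span K (Set.range ρ) = ⊤) :
    Submodule.span K (Set.range fun σ => LinearMap.toMatrix bK bK (ρ σ)) = ⊤ := by
  have h1 : (Set.range fun σ => LinearMap.toMatrix bK bK (ρ σ)) =
      ((LinearMap.toMatrix bK bK).toLinearMap :
        Module.End K W →ₗ[K] Matrix (Fin 2) (Fin 2) K) '' (Set.range ρ) := by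
    rw [← Set.range_comp]
    rfl
  rw [h1, ← Submodule.map_span, h, Submodule.map_top, LinearMap.range_eq_top]
  exact (LinearMap.toMatrix bK bK).surjective

/-- Auxiliary form of `exists_isUnit_det_coordMat` with all types explicit. -/
theorem exists_isUnit_det_coordMat_aux {A : Type*} [CommRing A] [IsLocalRing A]
    {V : Type*} [AddCommGroup V] [Module A V] (b : Basis (Fin 2) A V)
    {G : Type*} [Monoid G] (ρ : G →* Module.End A V)
    (hirr : ∀ U : Submodule (AlgebraicClosure (IsLocalRing.ResidueField A))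
        (AlgebraicClosure (IsLocalRing.ResidueField A) ⊗[IsLocalRing.ResidueField A]
          (IsLocalRing.ResidueField A ⊗[A] V)),
      (∀ x, ∀ w ∈ U, ((ρ x).baseChange (IsLocalRing.ResidueField A)).baseChange
        (AlgebraicClosure (IsLocalRing.ResidueField A)) w ∈ U) → U = ⊥ ∨ U = ⊤) :
    ∃ g : Fin 2 × Fin 2 → G,
      IsUnit (coordMat (fun σ => LinearMap.toMatrix b b (ρ σ)) g).det := by
  classical
  set k := IsLocalRing.ResidueField A with hk
  set K := AlgebraicClosure k with hK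
  set ρK : G →* Module.End K (K ⊗[k] (k ⊗[A] V)) :=
    { toFun := fun x => ((ρ x).baseChange k).baseChange K
      map_one' := by rw [map_one, LinearMap.baseChange_one, LinearMap.baseChange_one]
      map_mul' := fun x y => by
        rw [map_mul, LinearMap.baseChange_mul, LinearMap.baseChange_mul] } with hρK
  set bk : Basis (Fin 2) k (k ⊗[A] V) := Algebra.TensorProduct.basis k b with hbk
  set bK : Basis (Fin 2) K (K ⊗[k] (k ⊗[A] V)) := Algebra.TensorProduct.basis K bk with hbK
  have hfin : Module.finrank K (K ⊗[k] (k ⊗[A] V)) = 2 := by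
    rw [Module.finrank_eq_card_basis bK, Fintype.card_fin]
  have hspan : Submodule.span K (Set.range ρK) = ⊤ := burnside_two hfin ρK hirr
  set rK : G → Matrix (Fin 2) (Fin 2) K := fun σ => LinearMap.toMatrix bK bK (ρK σ) with hrK
  have hrK_eq : ∀ σ, rK σ = ((LinearMap.toMatrix b b (ρ σ)).map (algebraMap A k)).map
      (algebraMap k K) := by
    intro σ
    rw [← LinearMap.toMatrix_baseChange, ← LinearMap.toMatrix_baseChange]
    rfl
  have hspan' : Submodule.span K (Set.range rK) = ⊤ := span_range_toMatrix bK ρK hspan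
  obtain ⟨g, hg⟩ := exists_coordMat_det_ne_zero rK hspan'
  refine ⟨g, ?_⟩
  have h2 : coordMat rK g = ((algebraMap k K).comp (algebraMap A k)).mapMatrix
      (coordMat (fun σ => LinearMap.toMatrix b b (ρ σ)) g) := by
    ext ab j
    simp only [coordMat, Matrix.of_apply, RingHom.mapMatrix_apply, Matrix.map_apply]
    rw [hrK_eq]
    rfl
  rw [h2, ← RingHom.map_det] at hg
  by_contra hnu
  apply hg
  have h4 : (coordMat (fun σ => LinearMap.toMatrix b b (ρ σ)) g).det ∈
      IsLocalRing.maximalIdeal A := (IsLocalRing.mem_maximalIdeal _).2 hnu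
  rw [RingHom.comp_apply, IsLocalRing.ResidueField.algebraMap_eq,
    (IsLocalRing.residue_eq_zero_iff _).2 h4, map_zero]

/-- If the residual representation is absolutely irreducible, four matrices of the representation
form a basis of `M₂(A)`. -/
theorem exists_isUnit_det_coordMat {A : Type} [CommRing A] [IsLocalRing A] (ρ : GaloisRepAdic A)
    (habs : ρ.residual.IsAbsolutelyIrreducible) (b : Basis (Fin 2) A ρ.V) :
    ∃ g : Fin 2 × Fin 2 → (AlgebraicClosure ℚ ≃ₐ[ℚ] AlgebraicClosure ℚ),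
      IsUnit (coordMat (fun σ => LinearMap.toMatrix b b (ρ.ρ σ)) g).det :=
  exists_isUnit_det_coordMat_aux b ρ.ρ habs

/-- **Carayol's lemma for `GaloisRepAdic`.** -/
theorem isEquiv_of_trace_eq {A : Type} [CommRing A] [IsLocalRing A] (ρ₁ ρ₂ : GaloisRepAdic A)
    (habs : ρ₁.residual.IsAbsolutelyIrreducible)
    (htr : ∀ σ, LinearMap.trace A ρ₁.V (ρ₁.ρ σ) = LinearMap.trace A ρ₂.V (ρ₂.ρ σ)) :
    ρ₁.IsEquiv ρ₂ := by
  classical
  set b₁ : Basis (Fin 2) A ρ₁.V := Module.finBasisOfFinrankEq A ρ₁.V ρ₁.finrank_eq with hb₁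
  set b₂ : Basis (Fin 2) A ρ₂.V := Module.finBasisOfFinrankEq A ρ₂.V ρ₂.finrank_eq with hb₂
  set r₁ : (AlgebraicClosure ℚ ≃ₐ[ℚ] AlgebraicClosure ℚ) →* Matrix (Fin 2) (Fin 2) A :=
    ((LinearMap.toMatrixAlgEquiv b₁ : Module.End A ρ₁.V ≃ₐ[A] Matrix (Fin 2) (Fin 2) A) :
      Module.End A ρ₁.V →* Matrix (Fin 2) (Fin 2) A).comp ρ₁.ρ with hr₁
  set r₂ : (AlgebraicClosure ℚ ≃ₐ[ℚ] AlgebraicClosure ℚ) →* Matrix (Fin 2) (Fin 2) A :=
    ((LinearMap.toMatrixAlgEquiv b₂ : Module.End A ρ₂.V ≃ₐ[A] Matrix (Fin 2) (Fin 2) A) :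
      Module.End A ρ₂.V →* Matrix (Fin 2) (Fin 2) A).comp ρ₂.ρ with hr₂
  have hr₁a : ∀ σ, r₁ σ = LinearMap.toMatrix b₁ b₁ (ρ₁.ρ σ) := fun σ => rfl
  have hr₂a : ∀ σ, r₂ σ = LinearMap.toMatrix b₂ b₂ (ρ₂.ρ σ) := fun σ => rfl
  have htr' : ∀ σ, (r₁ σ).trace = (r₂ σ).trace := by
    intro σ
    rw [hr₁a, hr₂a, ← LinearMap.trace_eq_matrix_trace A b₁, ← LinearMap.trace_eq_matrix_trace A b₂]
    exact htr σ
  obtain ⟨g, hg⟩ := exists_isUnit_det_coordMat ρ₁ habs b₁
  obtain ⟨P, hP, hPx⟩ := exists_conj_of_trace_eq r₁ r₂ htr' g hg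
  have hPdet : IsUnit (LinearMap.toMatrix b₁ b₂ (Matrix.toLin b₁ b₂ P)).det := by
    rw [LinearMap.toMatrix_toLin]; exact hP
  refine ⟨⟨LinearEquiv.ofIsUnitDet hPdet, fun σ x => ?_⟩⟩
  rw [LinearEquiv.ofIsUnitDet_apply, LinearEquiv.ofIsUnitDet_apply]
  have h1 : Matrix.toLin b₁ b₂ P ∘ₗ ρ₁.ρ σ = ρ₂.ρ σ ∘ₗ Matrix.toLin b₁ b₂ P := by
    apply (LinearMap.toMatrix b₁ b₂).injective
    rw [LinearMap.toMatrix_comp b₁ b₁ b₂, LinearMap.toMatrix_comp b₁ b₂ b₂,
      LinearMap.toMatrix_toLin, ← hr₁a, ← hr₂a, hPx]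
  exact LinearMap.congr_fun h1 x

end Fermat.Agent.TraceRigidity
end MergeWrap_Lib_TraceRigidity_GaloisRep

section MergeWrap_Lib_TraceRigidity_Density -- from Lib/TraceRigidity/Density.lean

/-!
# From Frobenius charpolys to equivalence (owner: helper62)

If two `GaloisRepAdic T` (`T` Noetherian local) have the same characteristic polynomials at all
Frobenius elements outside a finite set of primes, then (assuming Frobenius density in the
existence form `F3.FrobDensityLite`) they have the same traces everywhere; if moreover one of them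
is residually absolutely irreducible, they are equivalent.
-/

namespace Fermat.Agent.TraceRigidity

open Module Polynomial

section Algebra

variable {A : Type*} [CommRing A]

/-- Coordinates of an element of `I • ⊤` lie in `I`. -/
lemma repr_mem_of_mem_smul_top {V : Type*} [AddCommGroup V] [Module A V] {ι : Type*}
    (b : Basis ι A V) (I : Ideal A) {x : V} (hx : x ∈ I • (⊤ : Submodule A V)) (i : ι) :
    b.repr x i ∈ I := by
  refine Submodule.smul_induction_on (p := fun x => b.repr x i ∈ I) hx ?_ ?_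
  · intro a ha v _
    rw [map_smul, Finsupp.smul_apply, smul_eq_mul]
    exact I.mul_mem_right _ ha
  · intro x y hx hy
    rw [map_add, Finsupp.add_apply]
    exact I.add_mem hx hy

/-- If two endomorphisms are congruent modulo `I`, so are their traces. -/
lemma trace_sub_mem_of_forall_sub_mem {V : Type*} [AddCommGroup V] [Module A V]
    [Module.Free A V] [Module.Finite A V] (I : Ideal A) (f g : Module.End A V)
    (h : ∀ v, f v - g v ∈ I • (⊤ : Submodule A V)) :
    LinearMap.trace A V f - LinearMap.trace A V g ∈ I := by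
  classical
  set b := Module.Free.chooseBasis A V with hb
  rw [← map_sub, LinearMap.trace_eq_matrix_trace A b, Matrix.trace]
  refine I.sum_mem fun i _ => ?_
  rw [Matrix.diag_apply, LinearMap.toMatrix_apply, LinearMap.sub_apply]
  exact repr_mem_of_mem_smul_top b I (h (b i)) i

/-- A linear map sends `I • ⊤` into `I • ⊤`. -/
lemma map_mem_smul_top {V : Type*} [AddCommGroup V] [Module A V] (I : Ideal A)
    (f : Module.End A V) {x : V} (hx : x ∈ I • (⊤ : Submodule A V)) :
    f x ∈ I • (⊤ : Submodule A V) := by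
  refine Submodule.smul_induction_on (p := fun x => f x ∈ I • (⊤ : Submodule A V)) hx ?_ ?_
  · intro a ha v _
    rw [map_smul]
    exact Submodule.smul_mem_smul ha Submodule.mem_top
  · intro x y hx hy
    rw [map_add]
    exact Submodule.add_mem _ hx hy

/-- The traces of the powers of a `2 × 2` matrix are determined by its characteristic
polynomial. -/
lemma matrix_trace_pow_eq_of_charpoly_eq [Nontrivial A] (M₁ M₂ : Matrix (Fin 2) (Fin 2) A)
    (h : M₁.charpoly = M₂.charpoly) (j : ℕ) : (M₁ ^ j).trace = (M₂ ^ j).trace := by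
  have htr : M₁.trace = M₂.trace := by
    rw [Matrix.trace_eq_neg_charpoly_coeff, Matrix.trace_eq_neg_charpoly_coeff, h]
  have hdet : M₁.det = M₂.det := by
    rw [Matrix.det_eq_sign_charpoly_coeff, Matrix.det_eq_sign_charpoly_coeff, h]
  have hrec : ∀ M : Matrix (Fin 2) (Fin 2) A, ∀ n : ℕ,
      (M ^ (n + 2)).trace = M.trace * (M ^ (n + 1)).trace - M.det * (M ^ n).trace := by
    intro M n
    have hCH : M ^ 2 = M.trace • M - M.det • (1 : Matrix (Fin 2) (Fin 2) A) := by
      have h1 := Matrix.aeval_self_charpoly M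
      rw [Matrix.charpoly_fin_two] at h1
      simp only [map_add, map_sub, map_mul, map_pow, aeval_X, aeval_C,
        Algebra.algebraMap_eq_smul_one] at h1
      rw [smul_mul_assoc, one_mul] at h1
      rw [← sub_eq_zero, ← h1]
      abel
    have h2 : M ^ (n + 2) = M.trace • M ^ (n + 1) - M.det • M ^ n := by
      rw [pow_add, hCH, mul_sub, mul_smul_comm, mul_smul_comm, mul_one, ← pow_succ]
    rw [h2, Matrix.trace_sub, Matrix.trace_smul, Matrix.trace_smul, smul_eq_mul, smul_eq_mul]
  induction j using Nat.strong_induction_on with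
  | _ j ih =>
    match j with
    | 0 => simp
    | 1 => simpa using htr
    | (n + 2) =>
      rw [hrec M₁ n, hrec M₂ n, ih (n + 1) (by omega), ih n (by omega), htr, hdet]

/-- The traces of the powers of an endomorphism of a free module of rank two are determined by
its characteristic polynomial. -/
lemma trace_pow_eq_of_charpoly_eq [Nontrivial A] {V₁ V₂ : Type*} [AddCommGroup V₁] [Module A V₁]
    [AddCommGroup V₂] [Module A V₂] [Module.Free A V₁] [Module.Finite A V₁]
    [Module.Free A V₂] [Module.Finite A V₂]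
    (h₁ : Module.finrank A V₁ = 2) (h₂ : Module.finrank A V₂ = 2)
    (f₁ : Module.End A V₁) (f₂ : Module.End A V₂) (h : f₁.charpoly = f₂.charpoly) (j : ℕ) :
    LinearMap.trace A V₁ (f₁ ^ j) = LinearMap.trace A V₂ (f₂ ^ j) := by
  classical
  set b₁ : Basis (Fin 2) A V₁ := Module.finBasisOfFinrankEq A V₁ h₁
  set b₂ : Basis (Fin 2) A V₂ := Module.finBasisOfFinrankEq A V₂ h₂
  rw [LinearMap.trace_eq_matrix_trace A b₁, LinearMap.trace_eq_matrix_trace A b₂,
    ← LinearMap.toMatrix_pow, ← LinearMap.toMatrix_pow]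
  apply matrix_trace_pow_eq_of_charpoly_eq
  rw [LinearMap.charpoly_toMatrix, LinearMap.charpoly_toMatrix, h]

end Algebra

section Galois

open Fermat.Agent.F3

variable {T : Type} [CommRing T] [IsLocalRing T]

/-- Congruence of `ρ s` and `ρ t` modulo `𝔪 ^ n` when `s` and `t` agree on the level-`n` field. -/
lemma trace_sub_mem_of_agree (ρ : GaloisRepAdic T) (n : ℕ)
    (L : IntermediateField ℚ (AlgebraicClosure ℚ))
    (hL : ∀ σ : GQ, (∀ x ∈ L, σ x = x) →
      ∀ v : ρ.V, ρ.ρ σ v - v ∈ (IsLocalRing.maximalIdeal T ^ n) • (⊤ : Submodule T ρ.V))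
    (s t : GQ) (hst : ∀ x ∈ L, t x = s x) :
    LinearMap.trace T ρ.V (ρ.ρ t) - LinearMap.trace T ρ.V (ρ.ρ s) ∈
      IsLocalRing.maximalIdeal T ^ n := by
  apply trace_sub_mem_of_forall_sub_mem
  intro v
  have h1 : ∀ x ∈ L, (s⁻¹ * t) x = x := by
    intro x hx
    rw [AlgEquiv.mul_apply, hst x hx]
    exact s.symm_apply_apply x
  have h2 := hL (s⁻¹ * t) h1 v
  have h3 : ρ.ρ t v - ρ.ρ s v = ρ.ρ s (ρ.ρ (s⁻¹ * t) v - v) := by
    rw [map_sub, ← Module.End.mul_apply, ← map_mul, mul_inv_cancel_left]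
  rw [h3]
  exact map_mem_smul_top _ _ h2

/-- **Frobenius charpolys determine the trace.** -/
theorem trace_eq_of_charpoly_frob_eq [IsNoetherianRing T] (hdens : FrobDensityLite)
    (ρ₁ ρ₂ : GaloisRepAdic T) (S : Finset ℕ)
    (hfrob : ∀ ℓ : ℕ, ℓ.Prime → ℓ ∉ S →
      ∀ A : ValuationSubring (AlgebraicClosure ℚ), A.LiesOverPrime ℓ →
        ∀ σ : GQ, A.IsFrobeniusAt σ ℓ →
          LinearMap.charpoly (ρ₁.ρ σ) = LinearMap.charpoly (ρ₂.ρ σ))
    (s : GQ) :
    LinearMap.trace T ρ₁.V (ρ₁.ρ s) = LinearMap.trace T ρ₂.V (ρ₂.ρ s) := by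
  have hbot : ⨅ n : ℕ, IsLocalRing.maximalIdeal T ^ n = ⊥ :=
    Ideal.iInf_pow_eq_bot_of_isLocalRing _ (Ideal.IsMaximal.ne_top inferInstance)
  rw [← sub_eq_zero, ← Ideal.mem_bot, ← hbot, Ideal.mem_iInf]
  intro n
  obtain ⟨L₁, hL₁fd, hL₁⟩ := ρ₁.isAdicContinuous n
  obtain ⟨L₂, hL₂fd, hL₂⟩ := ρ₂.isAdicContinuous n
  have := hL₁fd
  have := hL₂fd
  have hQalg : Algebra.IsAlgebraic ℚ (AlgebraicClosure ℚ) := AlgebraicClosure.isAlgebraic ℚ
  have hQcl : IsAlgClosure ℚ (AlgebraicClosure ℚ) := ⟨inferInstance, hQalg⟩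
  have hQn : Normal ℚ (AlgebraicClosure ℚ) :=
    (inferInstance : IsGalois ℚ (AlgebraicClosure ℚ)).to_normal
  set L : IntermediateField ℚ (AlgebraicClosure ℚ) :=
    IntermediateField.normalClosure ℚ (↥(L₁ ⊔ L₂)) (AlgebraicClosure ℚ) with hLdef
  have hLfd : FiniteDimensional ℚ L := normalClosure.is_finiteDimensional ℚ _ _
  have hLn : Normal ℚ L := normalClosure.normal ℚ _ _
  have hL₁L : L₁ ≤ L := le_trans le_sup_left (IntermediateField.le_normalClosure _)
  have hL₂L : L₂ ≤ L := le_trans le_sup_right (IntermediateField.le_normalClosure _)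
  obtain ⟨ℓ, A, τ, k, j, hℓ, hℓS, hA, hτ, hτs, hkj⟩ := hdens L hLfd hLn s S
  -- `L` is stable under `G_ℚ`
  have hstab : ∀ σ : GQ, ∀ x ∈ L, σ x ∈ L := by
    intro σ x hx
    have := (IntermediateField.normal_iff_forall_map_le'.1 hLn) σ
    exact this ⟨x, hx, rfl⟩
  -- `τ ^ j = s` on `L`
  have hpow : ∀ m : ℕ, ∀ x ∈ L, (τ ^ m) x = ((s ^ k) ^ m) x := by
    intro m
    induction m with
    | zero => intro x _; simp
    | succ m ih =>
      intro x hx
      rw [pow_succ, pow_succ, AlgEquiv.mul_apply, AlgEquiv.mul_apply, hτs x hx]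
      exact ih _ (hstab _ x hx)
  have hτj : ∀ x ∈ L, (τ ^ j) x = s x := by
    intro x hx
    rw [hpow j x hx, ← pow_mul]
    exact hkj x hx
  have h1 := trace_sub_mem_of_agree ρ₁ n L (fun σ hσ => hL₁ σ fun x hx => hσ x (hL₁L hx))
    s (τ ^ j) hτj
  have h2 := trace_sub_mem_of_agree ρ₂ n L (fun σ hσ => hL₂ σ fun x hx => hσ x (hL₂L hx))
    s (τ ^ j) hτj
  have h3 : LinearMap.trace T ρ₁.V (ρ₁.ρ (τ ^ j)) = LinearMap.trace T ρ₂.V (ρ₂.ρ (τ ^ j)) := by
    rw [map_pow ρ₁.ρ, map_pow ρ₂.ρ]
    exact trace_pow_eq_of_charpoly_eq ρ₁.finrank_eq ρ₂.finrank_eq _ _ (hfrob ℓ hℓ hℓS A hA τ hτ) j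
  have h4 : LinearMap.trace T ρ₁.V (ρ₁.ρ s) - LinearMap.trace T ρ₂.V (ρ₂.ρ s) =
      (LinearMap.trace T ρ₂.V (ρ₂.ρ (τ ^ j)) - LinearMap.trace T ρ₂.V (ρ₂.ρ s)) -
      (LinearMap.trace T ρ₁.V (ρ₁.ρ (τ ^ j)) - LinearMap.trace T ρ₁.V (ρ₁.ρ s)) := by
    rw [h3]; ring
  rw [h4]
  exact Ideal.sub_mem _ h2 h1

/-- **Frobenius charpolys determine the representation** (residually absolutely irreducible
case). -/
theorem isEquiv_of_charpoly_frob_eq [IsNoetherianRing T] (hdens : FrobDensityLite)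
    (ρ₁ ρ₂ : GaloisRepAdic T) (habs : ρ₁.residual.IsAbsolutelyIrreducible) (S : Finset ℕ)
    (hfrob : ∀ ℓ : ℕ, ℓ.Prime → ℓ ∉ S →
      ∀ A : ValuationSubring (AlgebraicClosure ℚ), A.LiesOverPrime ℓ →
        ∀ σ : GQ, A.IsFrobeniusAt σ ℓ →
          LinearMap.charpoly (ρ₁.ρ σ) = LinearMap.charpoly (ρ₂.ρ σ)) :
    ρ₁.IsEquiv ρ₂ :=
  isEquiv_of_trace_eq ρ₁ ρ₂ habs (trace_eq_of_charpoly_frob_eq hdens ρ₁ ρ₂ S hfrob)

/-- Unramifiedness is invariant under equivalence. -/
theorem isUnramifiedAt_of_isEquiv {ρ₁ ρ₂ : GaloisRepAdic T} (h : ρ₁.IsEquiv ρ₂) (q : ℕ)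
    (h1 : ρ₁.IsUnramifiedAt q) : ρ₂.IsUnramifiedAt q := by
  obtain ⟨e⟩ := h
  intro P hP σ hσ
  refine LinearMap.ext fun y => ?_
  obtain ⟨x, rfl⟩ := e.toLinearEquiv.surjective y
  rw [← e.map_apply, h1 P hP σ hσ]
  rfl

end Galois

end Fermat.Agent.TraceRigidity
end MergeWrap_Lib_TraceRigidity_Density
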