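import Mathlib
import Fermat.Agent.MU.Lib.TraceRigidity.Density

section MergeWrap_Lib_TraceRigidity_Points -- from Lib/TraceRigidity/Points.lean

/-!
# Unramifiedness from points (owner: helper62)

Let `ρ : GaloisRepAdic T` be residually absolutely irreducible and let `ψ i : T →+* O i` be a
jointly injective family of local homomorphisms to Noetherian local rings.  If for every `i` there
is a representation `ρ' i` over `O i`, unramified at `q`, whose Frobenius characteristic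
polynomials (outside a finite set `S` of primes) are the images of those of `ρ`, then `ρ` is
unramified at `q`.  This is the shape in which S30 (existence over discrete valuation rings) and
the semisimplicity of the Hecke algebra are consumed by S31.
-/

namespace Fermat.Agent.TraceRigidity

open Matrix Module TensorProduct Polynomial Fermat.Agent.F3

/-- Variant of `isEquiv_of_trace_eq` where the irreducibility hypothesis is replaced by the
existence of four matrices of `ρ₁` forming a basis of `M₂(A)`. -/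
theorem isEquiv_of_trace_eq_of_basis {A : Type} [CommRing A] [IsLocalRing A]
    (ρ₁ ρ₂ : GaloisRepAdic A) (b₁ : Basis (Fin 2) A ρ₁.V) (g : Fin 2 × Fin 2 → GQ)
    (hg : IsUnit (coordMat (fun σ => LinearMap.toMatrix b₁ b₁ (ρ₁.ρ σ)) g).det)
    (htr : ∀ σ, LinearMap.trace A ρ₁.V (ρ₁.ρ σ) = LinearMap.trace A ρ₂.V (ρ₂.ρ σ)) :
    ρ₁.IsEquiv ρ₂ := by
  classical
  set b₂ : Basis (Fin 2) A ρ₂.V := Module.finBasisOfFinrankEq A ρ₂.V ρ₂.finrank_eq with hb₂
  set r₁ : GQ →* Matrix (Fin 2) (Fin 2) A :=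
    ((LinearMap.toMatrixAlgEquiv b₁ : Module.End A ρ₁.V ≃ₐ[A] Matrix (Fin 2) (Fin 2) A) :
      Module.End A ρ₁.V →* Matrix (Fin 2) (Fin 2) A).comp ρ₁.ρ with hr₁
  set r₂ : GQ →* Matrix (Fin 2) (Fin 2) A :=
    ((LinearMap.toMatrixAlgEquiv b₂ : Module.End A ρ₂.V ≃ₐ[A] Matrix (Fin 2) (Fin 2) A) :
      Module.End A ρ₂.V →* Matrix (Fin 2) (Fin 2) A).comp ρ₂.ρ with hr₂
  have hr₁a : ∀ σ, r₁ σ = LinearMap.toMatrix b₁ b₁ (ρ₁.ρ σ) := fun σ => rfl
  have hr₂a : ∀ σ, r₂ σ = LinearMap.toMatrix b₂ b₂ (ρ₂.ρ σ) := fun σ => rfl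
  have htr' : ∀ σ, (r₁ σ).trace = (r₂ σ).trace := by
    intro σ
    rw [hr₁a, hr₂a, ← LinearMap.trace_eq_matrix_trace A b₁, ← LinearMap.trace_eq_matrix_trace A b₂]
    exact htr σ
  obtain ⟨P, hP, hPx⟩ := exists_conj_of_trace_eq r₁ r₂ htr' g hg
  have hPdet : IsUnit (LinearMap.toMatrix b₁ b₂ (Matrix.toLin b₁ b₂ P)).det := by
    rw [LinearMap.toMatrix_toLin]; exact hP
  refine ⟨⟨LinearEquiv.ofIsUnitDet hPdet, fun σ x => ?_⟩⟩
  rw [LinearEquiv.ofIsUnitDet_apply, LinearEquiv.ofIsUnitDet_apply]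
  have h1 : Matrix.toLin b₁ b₂ P ∘ₗ ρ₁.ρ σ = ρ₂.ρ σ ∘ₗ Matrix.toLin b₁ b₂ P := by
    apply (LinearMap.toMatrix b₁ b₂).injective
    rw [LinearMap.toMatrix_comp b₁ b₁ b₂, LinearMap.toMatrix_comp b₁ b₂ b₂,
      LinearMap.toMatrix_toLin, ← hr₁a, ← hr₂a, hPx]
  exact LinearMap.congr_fun h1 x

/-- **Unramifiedness from points.** -/
theorem isUnramifiedAt_of_points {T : Type} [CommRing T] [IsLocalRing T]
    (hdens : FrobDensityLite)
    (ρ : GaloisRepAdic T) (habs : ρ.residual.IsAbsolutelyIrreducible) (S : Finset ℕ) (q : ℕ)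
    {ι : Type*} (O : ι → Type) [∀ i, CommRing (O i)] [∀ i, IsLocalRing (O i)]
    [∀ i, IsNoetherianRing (O i)]
    (ψ : ∀ i, T →+* O i) (hloc : ∀ i, IsLocalHom (ψ i))
    (hinj : ∀ x : T, (∀ i, ψ i x = 0) → x = 0)
    (ρ' : ∀ i, GaloisRepAdic (O i))
    (hfrob : ∀ i, ∀ ℓ : ℕ, ℓ.Prime → ℓ ∉ S →
      ∀ A : ValuationSubring (AlgebraicClosure ℚ), A.LiesOverPrime ℓ →
        ∀ σ : GQ, A.IsFrobeniusAt σ ℓ →
          LinearMap.charpoly ((ρ' i).ρ σ) = (LinearMap.charpoly (ρ.ρ σ)).map (ψ i))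
    (hunr : ∀ i, (ρ' i).IsUnramifiedAt q) :
    ρ.IsUnramifiedAt q := by
  classical
  set b : Basis (Fin 2) T ρ.V := Module.finBasisOfFinrankEq T ρ.V ρ.finrank_eq with hb
  obtain ⟨g, hg⟩ := exists_isUnit_det_coordMat ρ habs b
  intro P hP σ hσ
  -- it suffices to show that the matrix of `ρ σ` is the identity
  apply (LinearMap.toMatrix b b).injective
  rw [LinearMap.toMatrix_one]
  ext a c
  rw [← sub_eq_zero]
  apply hinj
  intro i
  let _ : Algebra T (O i) := (ψ i).toAlgebra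
  set ρi : GaloisRepAdic (O i) := ρ.baseChangeAlong (ψ i) (hloc i) with hρi
  set bi : Basis (Fin 2) (O i) ρi.V := Algebra.TensorProduct.basis (O i) b with hbi
  have hmat : ∀ τ, LinearMap.toMatrix bi bi (ρi.ρ τ) =
      (LinearMap.toMatrix b b (ρ.ρ τ)).map (ψ i) := fun τ =>
    LinearMap.toMatrix_baseChange (O i) (ρ.ρ τ) b b
  have hgi : IsUnit (coordMat (fun τ => LinearMap.toMatrix bi bi (ρi.ρ τ)) g).det := by
    have h1 : coordMat (fun τ => LinearMap.toMatrix bi bi (ρi.ρ τ)) g =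
        (ψ i).mapMatrix (coordMat (fun τ => LinearMap.toMatrix b b (ρ.ρ τ)) g) := by
      ext ab j
      simp only [coordMat, Matrix.of_apply, RingHom.mapMatrix_apply, Matrix.map_apply]
      rw [hmat]
      rfl
    rw [h1, ← RingHom.map_det]
    exact hg.map (ψ i)
  have hfrob' : ∀ ℓ : ℕ, ℓ.Prime → ℓ ∉ S →
      ∀ A : ValuationSubring (AlgebraicClosure ℚ), A.LiesOverPrime ℓ →
        ∀ τ : GQ, A.IsFrobeniusAt τ ℓ →
          LinearMap.charpoly (ρi.ρ τ) = LinearMap.charpoly ((ρ' i).ρ τ) := by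
    intro ℓ hℓ hℓS A hA τ hτ
    rw [hfrob i ℓ hℓ hℓS A hA τ hτ]
    exact LinearMap.charpoly_baseChange (ρ.ρ τ) (O i)
  have heq : ρi.IsEquiv (ρ' i) :=
    isEquiv_of_trace_eq_of_basis ρi (ρ' i) bi g hgi
      (trace_eq_of_charpoly_frob_eq hdens ρi (ρ' i) S hfrob')
  have hunri : ρi.IsUnramifiedAt q := by
    obtain ⟨e⟩ := heq
    exact isUnramifiedAt_of_isEquiv ⟨e.symm⟩ q (hunr i)
  have h2 := hunri P hP σ hσ
  have h3 : LinearMap.toMatrix bi bi (ρi.ρ σ) = 1 := by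
    rw [h2, LinearMap.toMatrix_one]
  rw [hmat] at h3
  have h4 := congrFun (congrFun h3 a) c
  rw [Matrix.map_apply] at h4
  rw [map_sub, h4]
  by_cases hac : a = c
  · subst hac; simp
  · simp [hac]

end Fermat.Agent.TraceRigidity
end MergeWrap_Lib_TraceRigidity_Points
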